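import Fermat.Agent.KatzNF.Frobenius
import Fermat.Agent.ReducedGroups.Katz
import Fermat.Agent.WeilNF.FullLevel

/-!
# Katz's theorem at a prime over a number field

`p` divides the number of points at almost all places exactly when every matrix `M` of the image has
`det (M - 1) = 0`; then the `M - 1` have a common null vector or a common null covector.
-/

set_option autoImplicit false
set_option linter.unusedSectionVars false

noncomputable section

namespace FA.KatzNF

open WeierstrassCurve NumberField IsDedekindDomain Matrix Filter Topology FA.IsogenyNF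
  FA.NaturalChebotarev FA.TraceNF FA.Hecke
open scoped WeierstrassCurve.Affine Classical

universe u v

/-- `det (M - 1)` from trace and determinant. -/
theorem det_sub_one {R : Type*} [CommRing R] (M : Matrix (Fin 2) (Fin 2) R) :
    (M - 1).det = M.det + 1 - M.trace := by
  simp [det_fin_two, trace_fin_two]
  ring

variable {K : Type u} [Field K] [NumberField K] {Kb : Type v} [Field Kb] [DecidableEq Kb]
  [Algebra K Kb] [CharZero Kb] [IsAlgClosed Kb] [Algebra.IsAlgebraic K Kb]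
  (W₀ : WeierstrassCurve (𝓞 K)) [(W₀.map (algebraMap (𝓞 K) K)).IsElliptic]

local notation "W" => W₀.map (algebraMap (𝓞 K) K)

/-- The proportion of places up to `x` at which `m` divides the number of points. -/
def dvdRatio (m : ℕ) (x : ℝ) : ℝ :=
  (Nat.card {v : HeightOneSpectrum (𝓞 K) // (Ideal.absNorm v.asIdeal : ℝ) ≤ x ∧
      m ∣ Nat.card (W₀.map (Ideal.Quotient.mk v.asIdeal)).toAffine.Point} : ℝ) /
    Nat.card {v : HeightOneSpectrum (𝓞 K) // (Ideal.absNorm v.asIdeal : ℝ) ≤ x}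

/-- **The density of the places with `m ∣ #W₀(k_v)`.** -/
theorem tendsto_dvdRatio {m : ℕ} (hm : m ≠ 0) {P Q : ((W).toAffine⁄Kb).Point}
    (h : TorGen (W) m P Q) :
    Tendsto (dvdRatio W₀ m) atTop (𝓝 ((Nat.card {g : (h.rep hm).toHomUnits.range //
      g.1.val.det + 1 - g.1.val.trace = 0} : ℝ) / Nat.card (h.rep hm).toHomUnits.range)) := by
  refine Tendsto.congr (fun x => ?_)
    (tendsto_ratio_dec _ (hasMean_image W₀ hm h {p : ZMod m × ZMod m | p.2 + 1 - p.1 = 0}))
  rw [dvdRatio]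
  congr 2
  exact Nat.card_congr (Equiv.subtypeEquivRight fun v =>
    and_congr_right fun _ => (dvd_natCard_iff W₀ v).symm)

/-- Almost all places give density one. -/
theorem tendsto_one_of_finite {m : ℕ}
    (h : {v : HeightOneSpectrum (𝓞 K) |
      ¬ m ∣ Nat.card (W₀.map (Ideal.Quotient.mk v.asIdeal)).toAffine.Point}.Finite) :
    Tendsto (dvdRatio W₀ m) atTop (𝓝 1) := by
  refine tendsto_ratio_dec _ (d := fun v => Classical.propDecidable _) ?_
  refine hasMean_congr _ h (B := 1) (fun v => by split_ifs <;> norm_num) (fun v hv _ => ?_)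
    (hasMean_one K)
  simp only [Set.mem_ofPred_eq, not_not] at hv
  rw [if_pos hv]

/-- Density one makes every `M - 1` singular. -/
theorem det_eq_zero_of_tendsto_one {m : ℕ} (hm : m ≠ 0) {P Q : ((W).toAffine⁄Kb).Point}
    (h : TorGen (W) m P Q) (h1 : Tendsto (dvdRatio W₀ m) atTop (𝓝 1)) (σ : Kb ≃ₐ[K] Kb) :
    (h.rep hm σ - 1).det = 0 := by
  have : NeZero m := ⟨hm⟩
  have e := tendsto_nhds_unique (tendsto_dvdRatio W₀ hm h) h1
  rw [div_eq_one_iff_eq (Nat.cast_ne_zero.2 Nat.card_pos.ne'), Nat.cast_inj] at e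
  obtain ⟨g, hg⟩ := ((Nat.bijective_iff_injective_and_card _).2
    ⟨Subtype.val_injective (p := fun g : (h.rep hm).toHomUnits.range =>
      g.1.val.det + 1 - g.1.val.trace = 0), e⟩).2 ⟨(h.rep hm).toHomUnits σ, σ, rfl⟩
  have hg2 := g.2
  rw [hg] at hg2
  rw [det_sub_one]
  exact hg2

/-- Singular `M - 1` at all places gives divisibility outside a finite set. -/
theorem finite_of_det_eq_zero {m : ℕ} (hm : m ≠ 0) {P Q : ((W).toAffine⁄Kb).Point}
    (h : TorGen (W) m P Q) (hdet : ∀ σ : Kb ≃ₐ[K] Kb, (h.rep hm σ - 1).det = 0) :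
    {v : HeightOneSpectrum (𝓞 K) |
      ¬ m ∣ Nat.card (W₀.map (Ideal.Quotient.mk v.asIdeal)).toAffine.Point}.Finite := by
  have : IsAlgClosure K Kb := ⟨inferInstance, inferInstance⟩
  have : IsGalois K Kb := IsAlgClosure.isGalois K Kb
  have := finiteDimensional_levelField (Kb := Kb) (W) hm
  have : NumberField (levelField Kb (W) m) := NumberField.of_module_finite K _
  have := isGalois_levelField (Kb := Kb) (W) m
  refine ((finite_mem (Δ_ne_zero W₀)).union (finite_mem (x := (m : 𝓞 K))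
    (Nat.cast_ne_zero.2 hm))).subset fun v hv => ?_
  by_contra hgood
  simp only [Set.mem_union, Set.mem_ofPred_eq, not_or] at hgood
  obtain ⟨Q', hQ', hQv, τ, hτ⟩ := FA.Chebotarev.exists_isArithFrobAt (L := levelField Kb (W) m) v
  obtain ⟨σ, hσ⟩ := AlgEquiv.restrictNormalHom_surjective (F := K) (K₁ := levelField Kb (W) m) Kb τ
  obtain ⟨htr, hd⟩ := frob_matrix W₀ hm h hgood.1 hgood.2
    (IntermediateField.subset_adjoin K _) hQ' hQv hτ hσ
  refine hv ((dvd_natCard_iff W₀ v).2 ?_)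
  show (Ideal.absNorm v.asIdeal : ZMod m) + 1 - (frobTrace W₀ v : ZMod m) = 0
  rw [← htr, ← hd, ← det_sub_one, hdet]

/-- A fixed point or a stable line with trivial quotient, from the singular matrices. -/
theorem exists_fixed_or_line {p : ℕ} [Fact p.Prime] (hp : p ≠ 0)
    {P Q : ((W).toAffine⁄Kb).Point} (h : TorGen (W) p P Q)
    (hdet : ∀ σ : Kb ≃ₐ[K] Kb, (h.rep hp σ - 1).det = 0) :
    (∃ R : ((W).toAffine⁄Kb).Point, R ≠ 0 ∧ p • R = 0 ∧ ∀ σ : Kb ≃ₐ[K] Kb, σ • R = R) ∨
      ∃ G : AddSubgroup ((W).toAffine⁄Kb).Point, Nat.card G = p ∧ (∀ R ∈ G, p • R = 0) ∧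
        ∀ σ : Kb ≃ₐ[K] Kb, ∀ R, p • R = 0 → σ • R - R ∈ G := by
  rcases FA.Katz.singular_dichotomy (Set.range fun σ : Kb ≃ₐ[K] Kb => h.rep hp σ - 1)
    (by rintro _ ⟨σ, rfl⟩; exact hdet σ)
    (by
      rintro _ ⟨σ, rfl⟩ _ ⟨τ, rfl⟩
      have e : h.rep hp σ - 1 - (h.rep hp τ - 1) =
          (h.rep hp (σ * τ⁻¹) - 1) * h.rep hp τ := by
        rw [sub_mul, ← map_mul, inv_mul_cancel_right, one_mul]
        abel
      rw [e, det_mul, hdet, zero_mul]) with ⟨w, hw, hwT⟩ | ⟨v, hv, hvT⟩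
  · refine Or.inr ?_
    let φ : (Fin 2 → ZMod p) →+ ZMod p := AddMonoidHom.mk' (fun y => w ⬝ᵥ y)
      fun y z => dotProduct_add w y z
    have hφ : Function.Surjective φ := fun c => by
      obtain ⟨i, hi⟩ := Function.ne_iff.mp hw
      refine ⟨Pi.single i (c / w i), ?_⟩
      show w ⬝ᵥ Pi.single i (c / w i) = c
      rw [dotProduct_single, mul_div_cancel₀ _ hi]
    have hcard : Nat.card φ.ker = p := by
      have h1 := AddSubgroup.card_eq_card_quotient_mul_card_addSubgroup φ.ker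
      rw [Nat.card_congr (QuotientAddGroup.quotientKerEquivOfSurjective φ hφ).toEquiv,
        Nat.card_fun, Nat.card_zmod, Nat.card_fin, sq] at h1
      exact (Nat.eq_of_mul_eq_mul_left (Nat.pos_of_ne_zero hp) h1).symm
    refine ⟨φ.ker.map h.coord, ?_, ?_, fun σ R hR => ?_⟩
    · rw [AddSubgroup.card_map_of_injective (h.coord_injective hp), hcard]
    · rintro _ ⟨u, -, rfl⟩
      exact h.nsmul_coord u
    · obtain ⟨u, rfl⟩ := h.coord_surj hR
      refine ⟨(h.rep hp σ - 1) *ᵥ u, ?_, ?_⟩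
      · show w ⬝ᵥ ((h.rep hp σ - 1) *ᵥ u) = 0
        rw [dotProduct_mulVec, hwT _ ⟨σ, rfl⟩, zero_dotProduct]
      · rw [h.rep_spec hp, sub_mulVec, one_mulVec, map_sub]
  · refine Or.inl ⟨h.coord v, fun e => hv (h.coord_injective hp (by rw [e, map_zero])),
      h.nsmul_coord v, fun σ => ?_⟩
    have := hvT _ ⟨σ, rfl⟩
    rw [sub_mulVec, one_mulVec, sub_eq_zero] at this
    rw [h.rep_spec hp, this]

/-- The converse. -/
theorem det_eq_zero_of_fixed_or_line {p : ℕ} [Fact p.Prime] (hp : p ≠ 0)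
    {P Q : ((W).toAffine⁄Kb).Point} (h : TorGen (W) p P Q)
    (hG : (∃ R : ((W).toAffine⁄Kb).Point, R ≠ 0 ∧ p • R = 0 ∧ ∀ σ : Kb ≃ₐ[K] Kb, σ • R = R) ∨
      ∃ G : AddSubgroup ((W).toAffine⁄Kb).Point, Nat.card G = p ∧ (∀ R ∈ G, p • R = 0) ∧
        ∀ σ : Kb ≃ₐ[K] Kb, ∀ R, p • R = 0 → σ • R - R ∈ G) (σ : Kb ≃ₐ[K] Kb) :
    (h.rep hp σ - 1).det = 0 := by
  rcases hG with ⟨R, hR0, hR, hfix⟩ | ⟨G, hG, -, hsub⟩
  · obtain ⟨v, rfl⟩ := h.coord_surj hR
    refine Matrix.exists_mulVec_eq_zero_iff.1 ⟨v, fun e => hR0 (by rw [e, map_zero]), ?_⟩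
    refine h.coord_injective hp ?_
    rw [sub_mulVec, one_mulVec, map_sub, ← h.rep_spec hp, hfix, sub_self, map_zero]
  · by_contra hne
    have hsurj := (Matrix.mulVec_surjective_iff_isUnit (A := h.rep hp σ - 1)).2
      ((Matrix.isUnit_iff_isUnit_det _).2 (isUnit_iff_ne_zero.2 hne))
    have : Finite G := Nat.finite_of_card_ne_zero (by rw [hG]; exact hp)
    have hle := Nat.card_le_card_of_injective (fun u : Fin 2 → ZMod p =>
      (⟨h.coord u, by
        obtain ⟨u', rfl⟩ := hsurj u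
        rw [sub_mulVec, one_mulVec, map_sub, ← h.rep_spec hp]
        exact hsub σ _ (h.nsmul_coord u')⟩ : G))
      fun a b e => h.coord_injective hp (congrArg Subtype.val e :)
    rw [Nat.card_fun, Nat.card_zmod, Nat.card_fin, hG, sq] at hle
    exact absurd hle (not_le.2 (lt_mul_self (Fact.out : p.Prime).one_lt))

/-- A fixed point of order `p` comes from a point over `K`. -/
theorem exists_point_of_fixed (E : WeierstrassCurve K) [E.IsElliptic] {p : ℕ} [Fact p.Prime] :
    (∃ P : E.toAffine.Point, addOrderOf P = p) ↔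
      ∃ R : (E.toAffine⁄(AlgebraicClosure K)).Point, R ≠ 0 ∧ p • R = 0 ∧
        ∀ σ : AlgebraicClosure K ≃ₐ[K] AlgebraicClosure K, σ • R = R := by
  have hinj := FA.WeilNF.upK_injective E
  constructor
  · rintro ⟨P, hP⟩
    refine ⟨FA.WeilNF.upK E P, fun e => ?_, ?_, fun σ => FA.WeilNF.smul_upK E σ P⟩
    · rw [← map_zero (FA.WeilNF.upK E)] at e
      rw [hinj e, addOrderOf_zero] at hP
      exact (Fact.out : p.Prime).ne_one hP.symm
    · rw [← map_nsmul, ← hP, addOrderOf_nsmul_eq_zero, map_zero]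
  · rintro ⟨R, hR0, hR, hfix⟩
    have : IsGalois K (AlgebraicClosure K) := IsAlgClosure.isGalois K _
    rcases R with _ | ⟨x, y, hxy⟩
    · exact absurd rfl hR0
    have hxy' := fun σ : AlgebraicClosure K ≃ₐ[K] AlgebraicClosure K => by
      have e := hfix σ
      rw [Affine.Point.algEquiv_smul_def, Affine.Point.map_some, Affine.Point.some.injEq] at e
      exact e
    obtain ⟨x₀, rfl⟩ := (InfiniteGalois.mem_range_algebraMap_iff_fixed x).2 fun σ => (hxy' σ).1
    obtain ⟨y₀, rfl⟩ := (InfiniteGalois.mem_range_algebraMap_iff_fixed y).2 fun σ => (hxy' σ).2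
    refine ⟨.some x₀ y₀ ((E.toAffine.map_nonsingular
      (algebraMap K (AlgebraicClosure K)).injective x₀ y₀).1 hxy), ?_⟩
    rw [← addOrderOf_injective _ hinj]
    exact addOrderOf_eq_prime hR hR0

end FA.KatzNF

end
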