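import Fermat.Agent.TraceNF.Density
import Fermat.Agent.JugendtraumField.NormEquation
import Fermat.Agent.WeilNF.Det

/-!
# Frobenius modulo every level, for every curve over a number field

The determinant is the cyclotomic character for every curve, so the quadratic equation of the
`N v`-power map gives the trace; and Chebotarev's theorem gives the places with trace and
determinant in a given set, whatever the image is.
-/

set_option autoImplicit false
set_option linter.unusedSectionVars false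

noncomputable section

namespace FA.KatzNF

open WeierstrassCurve NumberField IsDedekindDomain Matrix Filter Topology FA.IsogenyNF FA.Hecke
  FA.NaturalChebotarev FA.TraceNF FA.Local FA.Frob FA.HasseBound
open FA.ClassNumberOne (xP yP)
open scoped WeierstrassCurve.Affine Classical

universe u v

variable {K : Type u} [Field K] [NumberField K] {Kb : Type v} [Field Kb] [DecidableEq Kb]
  [Algebra K Kb] [CharZero Kb] [IsAlgClosed Kb] [Algebra.IsAlgebraic K Kb]
  (W₀ : WeierstrassCurve (𝓞 K)) [(W₀.map (algebraMap (𝓞 K) K)).IsElliptic]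

local notation "W" => W₀.map (algebraMap (𝓞 K) K)

/-- **The trace and the determinant of a Frobenius element** modulo every `N`, for every curve. -/
theorem frob_matrix {N : ℕ} (hN : N ≠ 0) {P₁ P₂ : ((W).toAffine⁄Kb).Point}
    (hgen : TorGen (W) N P₁ P₂) {v : HeightOneSpectrum (𝓞 K)} (hΔ : W₀.Δ ∉ v.asIdeal)
    (hNv : (N : 𝓞 K) ∉ v.asIdeal) {L : IntermediateField K Kb} [NumberField L] [IsGalois K L]
    (hL : frobSet (Kb := Kb) (W) N ⊆ L) {Q : Ideal (𝓞 L)} (hQ : Q.IsMaximal)
    (hQv : Q.under (𝓞 K) = v.asIdeal) {τ : L ≃ₐ[K] L} (hFrob : IsArithFrobAt (𝓞 K) τ Q)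
    {σ : Kb ≃ₐ[K] Kb} (hτ : AlgEquiv.restrictNormalHom (F := K) L σ = τ) :
    (hgen.rep hN σ).trace = (frobTrace W₀ v : ZMod N) ∧
      (hgen.rep hN σ).det = (Ideal.absNorm v.asIdeal : ZMod N) := by
  obtain ⟨F, hq, hKlt⟩ := exists_frobPlace_at W₀ hN hΔ hNv hL hQ hQv hFrob hτ
  have hdet : (hgen.rep hN σ).det = (Ideal.absNorm v.asIdeal : ZMod N) := by
    rw [← hq]
    exact FA.WeilNF.det_rep hN hgen fun μ hμ => F.congr_root μ hμ
  refine ⟨?_, hdet⟩
  have := F.charP
  have : Fact F.l.Prime := ⟨F.prime⟩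
  have := residueField_isAlgClosed F.A
  have := redCurve_isElliptic F.int F.good
  obtain ⟨hW, htr⟩ := FA.JugendtraumField.exists_trQ_eq_frobTrace W₀ F hq hKlt
  have hquad : hgen.rep hN σ * hgen.rep hN σ - (frobTrace W₀ v : ZMod N) • hgen.rep hN σ +
      (((F.l : ℤ) ^ F.n : ℤ) : ZMod N) • 1 = 0 :=
    Matrix.ext_of_mulVec_single fun i => hgen.coord_injective hN (by
      rw [add_mulVec, sub_mulVec, ← mulVec_mulVec, smul_mulVec, smul_mulVec, one_mulVec,
        zero_mulVec, map_zero, map_add, map_sub, Int.cast_smul_eq_zsmul, Int.cast_smul_eq_zsmul,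
        map_zsmul, map_zsmul, ← hgen.rep_spec hN, ← hgen.rep_spec hN, ← htr]
      exact quadratic_trQ (W) F hW _ (hgen.nsmul_coord _))
  refine trace_eq_of_quadratic hquad ?_ ((Group.isUnit σ).map
    (Matrix.detMonoidHom.comp (hgen.rep hN)))
  rw [hdet, ← hq]
  push_cast
  rfl

/-- An automorphism fixing the points killed by `N` fixes their field and conversely. -/
theorem fixingSubgroup_levelField {N : ℕ} (hN : N ≠ 0)
    {P Q : ((W).toAffine⁄Kb).Point} (h : TorGen (W) N P Q) :
    (levelField Kb (W) N).fixingSubgroup = (h.rep hN).toHomUnits.ker := by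
  ext σ
  rw [IntermediateField.mem_fixingSubgroup_iff, MonoidHom.mem_ker]
  constructor
  · intro hσ
    have hfix : ∀ R : ((W).toAffine⁄Kb).Point, N • R = 0 → σ • R = R := fun R hR => by
      have hx := hσ (xP R) (IntermediateField.subset_adjoin K _
        (Or.inl (Or.inl (Or.inl ⟨R, hR, rfl⟩))))
      have hy := hσ (yP R) (IntermediateField.subset_adjoin K _
        (Or.inl (Or.inl (Or.inr ⟨R, hR, rfl⟩))))
      rcases R with _ | ⟨x, y, hxy⟩
      · exact smul_zero σ
      · simp only [Affine.Point.algEquiv_smul_def, Affine.Point.map_some,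
          Affine.Point.some.injEq]
        exact ⟨hx, hy⟩
    refine Units.ext (Matrix.ext_of_mulVec_single fun i => h.coord_injective hN ?_)
    rw [Units.val_one, one_mulVec, MonoidHom.coe_toHomUnits, ← h.rep_spec]
    exact hfix _ (h.nsmul_coord _)
  · intro hσ
    have h1 : h.rep hN σ = 1 := congrArg Units.val hσ
    have hfix : ∀ R : ((W).toAffine⁄Kb).Point, N • R = 0 → σ • R = R := fun R hR => by
      obtain ⟨v, rfl⟩ := h.coord_surj hR
      rw [h.rep_spec hN, h1, one_mulVec]
    have hle : levelField Kb (W) N ≤ IntermediateField.fixedField (Subgroup.zpowers σ) := by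
      rw [IntermediateField.adjoin_le_iff]
      rintro a ha ⟨τ, hτ⟩
      have hstab : σ ∈ MulAction.stabilizer (Kb ≃ₐ[K] Kb) a := by
        rcases ha with ((⟨R, hR, rfl⟩ | ⟨R, hR, rfl⟩) | ha) | ⟨c, -, rfl⟩
        · exact ((xP_smul σ R).symm.trans (by rw [hfix R hR]) : σ (xP R) = xP R)
        · exact ((yP_smul σ R).symm.trans (by rw [hfix R hR]) : σ (yP R) = yP R)
        · exact FA.WeilNF.root_fixed hN hfix ha
        · exact σ.commutes c
      obtain ⟨k, rfl⟩ := Subgroup.mem_zpowers_iff.1 hτ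
      exact Subgroup.zpow_mem _ hstab k
    exact fun x hx => hle hx ⟨σ, Subgroup.mem_zpowers σ⟩

/-- The number of points at a place, from the trace. -/
theorem natCard_eq (v : HeightOneSpectrum (𝓞 K)) :
    (Nat.card (W₀.map (Ideal.Quotient.mk v.asIdeal)).toAffine.Point : ℤ) =
      (Ideal.absNorm v.asIdeal : ℤ) + 1 - frobTrace W₀ v := by
  rw [frobTrace, sub_sub_cancel]

/-- Divisibility of the number of points, from the trace and the norm. -/
theorem dvd_natCard_iff {N : ℕ} (v : HeightOneSpectrum (𝓞 K)) :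
    N ∣ Nat.card (W₀.map (Ideal.Quotient.mk v.asIdeal)).toAffine.Point ↔
      ((frobTrace W₀ v : ZMod N), (Ideal.absNorm v.asIdeal : ZMod N)) ∈
        {p : ZMod N × ZMod N | p.2 + 1 - p.1 = 0} := by
  rw [← Int.natCast_dvd_natCast, natCard_eq, ← ZMod.intCast_zmod_eq_zero_iff_dvd]
  push_cast
  rfl

/-- **The places with `(a_v, N v)` in `S` modulo `N`**, for any image. -/
theorem hasMean_image {N : ℕ} (hN : N ≠ 0) {P Q : ((W).toAffine⁄Kb).Point}
    (h : TorGen (W) N P Q) (S : Set (ZMod N × ZMod N)) :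
    HasMean (fun v => if ((frobTrace W₀ v : ZMod N), (Ideal.absNorm v.asIdeal : ZMod N)) ∈ S
        then (1 : ℝ) else 0)
      ((Nat.card {g : (h.rep hN).toHomUnits.range // (g.1.val.trace, g.1.val.det) ∈ S} : ℝ) /
        Nat.card (h.rep hN).toHomUnits.range) := by
  have : IsAlgClosure K Kb := ⟨inferInstance, inferInstance⟩
  have : IsGalois K Kb := IsAlgClosure.isGalois K Kb
  have := finiteDimensional_levelField (Kb := Kb) (W) hN
  have : NumberField (levelField Kb (W) N) := NumberField.of_module_finite K _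
  have := isGalois_levelField (Kb := Kb) (W) N
  set ψ := (h.rep hN).toHomUnits
  let res : (Kb ≃ₐ[K] Kb) →* (levelField Kb (W) N ≃ₐ[K] levelField Kb (W) N) :=
    AlgEquiv.restrictNormalHom (levelField Kb (W) N)
  have hres : Function.Surjective res := AlgEquiv.restrictNormalHom_surjective Kb
  have hker : res.ker = ψ.rangeRestrict.ker :=
    ((IntermediateField.restrictNormalHom_ker _).trans (fixingSubgroup_levelField W₀ hN h)).trans
      ψ.ker_rangeRestrict.symm
  let e := ((QuotientGroup.quotientKerEquivOfSurjective res hres).symm.trans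
    (QuotientGroup.quotientMulEquivOfEq hker)).trans
      (QuotientGroup.quotientKerEquivOfSurjective ψ.rangeRestrict ψ.rangeRestrict_surjective)
  have he : ∀ σ, e (res σ) = ψ.rangeRestrict σ := fun σ => by
    have h1 : (QuotientGroup.quotientKerEquivOfSurjective res hres).symm (res σ) =
        (σ : (Kb ≃ₐ[K] Kb) ⧸ res.ker) := by
      rw [MulEquiv.symm_apply_eq]; rfl
    simp only [e, MulEquiv.trans_apply, h1]
    rfl
  set C : Set (levelField Kb (W) N ≃ₐ[K] levelField Kb (W) N) :=
    {τ | ((e τ).1.val.trace, (e τ).1.val.det) ∈ S}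
  have hC : ∀ g ∈ C, ∀ x, x * g * x⁻¹ ∈ C := fun g hg x => by
    show ((e (x * g * x⁻¹)).1.val.trace, (e (x * g * x⁻¹)).1.val.det) ∈ S
    rw [map_mul, map_mul, map_inv, Subgroup.coe_mul, Subgroup.coe_mul, Subgroup.coe_inv,
      Units.val_mul, Units.val_mul,
      Matrix.trace_mul_cycle, ← Units.val_mul, inv_mul_cancel, Units.val_one, one_mul,
      Matrix.det_units_conj]
    exact hg
  have hcard : (Nat.card C : ℝ) / Nat.card (levelField Kb (W) N ≃ₐ[K] levelField Kb (W) N) =
      (Nat.card {g : ψ.range // (g.1.val.trace, g.1.val.det) ∈ S} : ℝ) /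
        Nat.card ψ.range := by
    rw [Nat.card_congr e.toEquiv]
    congr 2
    exact Nat.card_congr (e.toEquiv.subtypeEquiv fun τ => Iff.rfl)
  have hm := hasMean_someFrobSet C hC
  rw [hcard] at hm
  refine hasMean_congr ({v | W₀.Δ ∈ v.asIdeal} ∪ {v | (N : 𝓞 K) ∈ v.asIdeal})
    ((finite_mem (Δ_ne_zero W₀)).union (finite_mem (Nat.cast_ne_zero.2 hN))) (B := 1)
    (fun v => by split_ifs <;> norm_num) (fun v hv _ => ?_) hm
  simp only [Set.mem_union, Set.mem_ofPred_eq, not_or] at hv
  refine if_congr ⟨fun hS => ?_, ?_⟩ rfl rfl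
  · obtain ⟨Q', hQ', hQv, τ, hτ⟩ := FA.Chebotarev.exists_isArithFrobAt (L := levelField Kb (W) N) v
    obtain ⟨σ, hσ⟩ := hres τ
    obtain ⟨htr, hdet⟩ := frob_matrix W₀ hN h hv.1 hv.2
      (IntermediateField.subset_adjoin K _) hQ' hQv hτ hσ
    refine ⟨Q', hQ', hQv, τ, ?_, hτ⟩
    show ((e τ).1.val.trace, (e τ).1.val.det) ∈ S
    rw [← hσ, he]
    show ((h.rep hN σ).trace, (h.rep hN σ).det) ∈ S
    rwa [htr, hdet]
  · rintro ⟨Q', hQ', hQv, τ, hτC, hτ⟩
    obtain ⟨σ, hσ⟩ := hres τ
    obtain ⟨htr, hdet⟩ := frob_matrix W₀ hN h hv.1 hv.2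
      (IntermediateField.subset_adjoin K _) hQ' hQv hτ hσ
    change ((e τ).1.val.trace, (e τ).1.val.det) ∈ S at hτC
    rw [← hσ, he] at hτC
    change ((h.rep hN σ).trace, (h.rep hN σ).det) ∈ S at hτC
    rwa [htr, hdet] at hτC

end FA.KatzNF

end
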